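import Fermat.Agent.FF4.K4.WordBridge
import Fermat.Agent.FF4.S40Skeleton
import Fermat.Agent.FF4.K8Q6.AnyIndex

/-!
# PROGRAMME II (row 38): WordBridge ∘ (Q6) for an old-killer (helper28)

For `t` with `IsOldKiller W p M' t` (vocabulary of `FF4/S40Skeleton` = `FF4/S44Skeleton` v3),
`S := {l | Good W p (M' * p) l}`, `ι := ↥S`, `ℓ := Subtype.val`, `w := word S t`:

* `oldKiller_not_dvd`   : `∀ i : S, ¬ (i : ℕ) ∣ M' * p`                        (`hℓ` of `k8_endgame`);
* `oldKiller_heckeFam`  : `FreeAlgebra.lift ℤ (fun i : S => S49.heckeFam M' i) w = 0`   (`hw`; WordBridge +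
                          helper9's (Q6) `K8Q6.lift_heckeFam_eq_zero_of_forall_apply`);
* `oldKiller_value_ne_zero` : `FreeAlgebra.lift ℤ (fun i : S => (a_i(W) : R)) w ≠ 0` in every commutative
                          ring of characteristic `p`                              (`ha`);
* `oldKiller_tBar`      : `FreeAlgebra.lift ℤ (fun i : S => heckeOperatorBar L i) w = tBar L t`;
* `oldKiller_word`      : the package as one existential.
-/

set_option autoImplicit false
set_option linter.unusedSectionVars false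
set_option linter.unusedVariables false
set_option linter.style.haveILetI false

noncomputable section

namespace Fermat.Agent.FF4.K4

open ModularCurve Fermat.Agent.Jac Fermat.Agent.FF4.S40Skeleton

variable (W : WeierstrassCurve ℤ) (p M' : ℕ)

/-- the good primes of the skeleton, as a set -/
abbrev goodSet : Set Nat.Primes := {l : Nat.Primes | Good W p (M' * p) l}

variable {W p M'}

theorem oldKiller_not_dvd (i : goodSet W p M') : ¬ ((i : Nat.Primes) : ℕ) ∣ M' * p :=
  i.2.2.1

theorem oldKiller_not_dvd_level (i : goodSet W p M') : ¬ ((i : Nat.Primes) : ℕ) ∣ M' :=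
  fun h => i.2.2.1 (h.mul_right p)

variable [NeZero M']

/-- **`hw`**: the word of an old-killer kills `S₂(Γ₀(M'))`. -/
theorem oldKiller_heckeFam {t : HeckeAlg} (ht : IsOldKiller W p M' t) :
    FreeAlgebra.lift ℤ (fun i : goodSet W p M' => Fermat.Agent.S49.heckeFam M' i)
      (word (goodSet W p M') t) = 0 :=
  Fermat.Agent.FF4.K8Q6.lift_heckeFam_eq_zero_of_forall_apply M'
    (fun i : goodSet W p M' => (i : Nat.Primes)) oldKiller_not_dvd_level _
    (lift_word_TLam_apply_eq_zero M' ht.1 ht.2.1)

/-- **`ha`**: the value of the word at the eigenvalues of `W` is nonzero in characteristic `p`. -/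
theorem oldKiller_value_ne_zero {t : HeckeAlg} (ht : IsOldKiller W p M' t) {R : Type*}
    [CommRing R] [CharP R p] :
    FreeAlgebra.lift ℤ (fun i : goodSet W p M' => ((W.apOfModel i : ℤ) : R))
      (word (goodSet W p M') t) ≠ 0 :=
  lift_word_intCast_ne_zero (fun l => W.apOfModel l) ht.1 ht.2.2

/-- the value of the word at the eigenvalues of `W` is `θ_W(t)` -/
theorem oldKiller_value {t : HeckeAlg} (ht : IsOldKiller W p M' t) {R : Type*} [CommRing R] :
    FreeAlgebra.lift ℤ (fun i : goodSet W p M' => ((W.apOfModel i : ℤ) : R))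
      (word (goodSet W p M') t) = ((theta W t : ℤ) : R) :=
  lift_word_intCast (fun l => W.apOfModel l) ht.1

/-- the word acts on `J₀(L)(ℚ̄)` as `tBar L t` -/
theorem oldKiller_tBar {t : HeckeAlg} (ht : IsOldKiller W p M' t) (L : ℕ) [NeZero L] :
    FreeAlgebra.lift ℤ (fun i : goodSet W p M' => heckeOperatorBar L i)
      (word (goodSet W p M') t) = tBar L t :=
  lift_word_heckeEvalBar L ht.1

/-- the word acts on `Lam L` as `tLam L t` -/
theorem oldKiller_tLam {t : HeckeAlg} (ht : IsOldKiller W p M' t) (L : ℕ) [NeZero L] :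
    FreeAlgebra.lift ℤ (fun i : goodSet W p M' => TLam L i)
      (word (goodSet W p M') t) = tLam L t :=
  lift_word_TLam L ht.1

/-- **the package**: the inputs `hℓ`, `hw`, `ha` of `K8.k8_endgame` / `k8_final` at the level
`M'` from an old-killer. -/
theorem oldKiller_word {t : HeckeAlg} (ht : IsOldKiller W p M' t) (R : Type*) [CommRing R]
    [CharP R p] :
    ∃ w : FreeAlgebra ℤ (goodSet W p M'),
      (∀ i : goodSet W p M', ¬ ((i : Nat.Primes) : ℕ) ∣ M' * p) ∧
      FreeAlgebra.lift ℤ (fun i : goodSet W p M' => Fermat.Agent.S49.heckeFam M' i) w = 0 ∧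
      FreeAlgebra.lift ℤ (fun i : goodSet W p M' => ((W.apOfModel i : ℤ) : R)) w ≠ 0 :=
  ⟨word (goodSet W p M') t, oldKiller_not_dvd, oldKiller_heckeFam ht,
    oldKiller_value_ne_zero ht⟩

end Fermat.Agent.FF4.K4
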