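import Fermat.Agent.LR.S41Of

/-!
# PROGRAMME II (row 38), core of the skeleton leaf (K-DS) (helper28): Deligne–Serre lifting on `Lam M`

A class `y ∈ Lam M`, not divisible by `p`, which is an eigenvector modulo `p` of the `T_l`
(`good l`) with integer eigenvalues `a l`, lifts to a normalised eigenform of level `M` congruent
to `a` modulo a maximal ideal above `p`.  Skeleton-independent (no `S40Skeleton`/`S44Skeleton`
vocabulary); the wrappers are in `FF4/K4/KDS.lean` (S40 form) and `FF4/K4/S44Leaves.lean`.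

`exists_eigenform_of_class` is the port of the landed `LR.S41Of.exists_eigenform_of_kernel_class`
(Program M, node F-INTERFACE) WITHOUT its `q`-part (`hUsq`, `qCoeff g q ^ 2 = 1`): Deligne–Serre
lifting (`S49.deligneSerre`) on the complex span of a Hecke-stable sublattice `Kj ≤ Lam M`,
Eichler–Shimura in the Fricke-twisted form (`LR.S41Of.phi`), common eigenvectors and
`S49.exists_normalizedEigenform_of_eigenvector`.
-/

set_option autoImplicit false
set_option linter.unusedSectionVars false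
set_option linter.unusedVariables false
set_option linter.style.haveILetI false

namespace Fermat.Agent.FF4.K4

open Matrix.SpecialLinearGroup CongruenceSubgroup ModularForm
open ModularCurve ModularCurve.Period CuspForm ModularFormClass
open Fermat.Agent.Jac Fermat.Agent.S49 Fermat.Agent.X0.S21 Fermat.Agent.LR.S41Of
open scoped MatrixGroups

/-- **Deligne–Serre lifting on `Lam M`** (port of `LR.S41Of.exists_eigenform_of_kernel_class`
without the `q`-part).  A class `f ∈ K ⊆ Λ(M)`, not divisible by `p`, which is an eigenvector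
modulo `p K` of the Hecke operators `T_l` (`good l`) with eigenvalues `a l`, where `K` is stable
under these `T_l`, produces a normalised eigenform `g` of level `M` with `a_l(g) ≡ a l` modulo a
maximal ideal above `p` (`good l`). -/
theorem exists_eigenform_of_class (M : ℕ) [NeZero M] {p : ℕ} (hp : p.Prime)
    (good : Nat.Primes → Prop) (a : Nat.Primes → ℤ) (Kj : Submodule ℤ (Lam M))
    (hstab : ∀ l, good l → ∀ x ∈ Kj, TLam M l x ∈ Kj)
    (f : Lam M) (hfK : f ∈ Kj) (hfp : ¬ ∃ y : Lam M, f = (p : ℤ) • y)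
    (hcong : ∀ l, good l → ∃ y ∈ Kj, TLam M l f - a l • f = (p : ℤ) • y) :
    ∃ (g : CuspForm (Gamma0 M) 2) (𝔪' : Ideal (integralClosure ℤ ℂ)),
      g.IsNormalizedEigenform ∧ 𝔪'.IsMaximal ∧ (p : integralClosure ℤ ℂ) ∈ 𝔪' ∧
      (∀ l : Nat.Primes, good l → ∃ c : integralClosure ℤ ℂ, (c : ℂ) = qCoeff g l ∧
        c - ((a l : ℤ) : integralClosure ℤ ℂ) ∈ 𝔪') := by
  classical
  haveI := finite_Lam M
  haveI hfdprod := finiteDimensional_prod_cuspForm_two M
  obtain ⟨𝔪, h𝔪max, hp𝔪⟩ := FLTPrelim.exists_maximalIdeal_natCast_prime_mem hp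
  obtain ⟨γ₀, hγ₀⟩ := exists_not_dvd_apply M hp f hfp
  -- the complex span of the lattice
  let V : Submodule ℂ (Additive (Gamma0 M) →+ ℂ) :=
    Submodule.span ℂ (castLam M '' (Kj : Set (Lam M)))
  have hVP : V ≤ parabolicHoms ℂ (Gamma0 M) ℂ := Submodule.span_le.mpr (by
    rintro _ ⟨x, -, rfl⟩
    exact castLam_mem_parabolicHoms M x)
  have hVrange : V ≤ LinearMap.range (phi M) := fun v hv => exists_phi_eq M (hVP hv)
  haveI : FiniteDimensional ℂ V := Submodule.finiteDimensional_of_le hVrange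
  have hVstab : ∀ l, good l → ∀ v ∈ V, heckeTransferLin M l v ∈ V := by
    intro l hl v hv
    have h1 : V ≤ V.comap (heckeTransferLin M l) := Submodule.span_le.mpr (by
      rintro _ ⟨x, hx, rfl⟩
      show heckeTransferLin M l (castLam M x) ∈ V
      rw [heckeTransferLin_apply, heckeTransfer_castLam]
      exact Submodule.subset_span ⟨_, hstab l hl x hx, rfl⟩)
    exact h1 hv
  -- the operators on `V`
  let T : {l : Nat.Primes // good l} → Module.End ℂ V := fun i =>
    (heckeTransferLin M i.1).restrict (hVstab i.1 i.2)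
  have hTcomm : ∀ i j, Commute (T i) (T j) := by
    intro i j
    show T i * T j = T j * T i
    refine LinearMap.ext fun v => Subtype.ext ?_
    exact heckeTransfer_comm_of_parabolic M i.1 j.1 (hVP v.2)
  -- the lattice in `V`
  let cK : Kj →ₗ[ℤ] V :=
    { toFun := fun x => ⟨castLam M x, Submodule.subset_span ⟨x, x.2, rfl⟩⟩
      map_add' := fun x y => Subtype.ext (by
        show castLam M ((x + y : Kj) : Lam M) = castLam M x + castLam M y
        rw [Submodule.coe_add, map_add])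
      map_smul' := fun n x => Subtype.ext (by
        show castLam M ((n • x : Kj) : Lam M) = n • castLam M x
        rw [Submodule.coe_smul, map_zsmul]) }
  have hcK : ∀ x : Kj, ((cK x : V) : Additive (Gamma0 M) →+ ℂ) = castLam M x := fun _ => rfl
  let L : Submodule ℤ V := LinearMap.range cK
  have hLfg : L.FG := by
    haveI : IsNoetherian ℤ (Lam M) := isNoetherian_of_isNoetherianRing_of_finite ℤ (Lam M)
    haveI : Module.Finite ℤ Kj := Module.Finite.iff_fg.mpr (IsNoetherian.noetherian Kj)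
    show (LinearMap.range cK).FG
    rw [LinearMap.range_eq_map]
    exact Submodule.FG.map cK Module.Finite.fg_top
  have hLspan : Submodule.span ℂ (L : Set V) = ⊤ := by
    apply Submodule.map_injective_of_injective V.injective_subtype
    rw [Submodule.map_span, Submodule.map_subtype_top]
    show Submodule.span ℂ (V.subtype '' (L : Set V)) =
      Submodule.span ℂ (castLam M '' (Kj : Set (Lam M)))
    congr 1
    ext φ
    constructor
    · rintro ⟨_, ⟨x, rfl⟩, rfl⟩
      exact ⟨x, x.2, rfl⟩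
    · rintro ⟨x, hx, rfl⟩
      exact ⟨cK ⟨x, hx⟩, ⟨⟨x, hx⟩, rfl⟩, rfl⟩
  have hLT : ∀ i, ∀ x ∈ L, T i x ∈ L := by
    rintro i _ ⟨x, rfl⟩
    refine ⟨⟨TLam M i.1 x, hstab i.1 i.2 x x.2⟩, Subtype.ext ?_⟩
    show castLam M (TLam M i.1 x) = heckeTransfer M i.1 ℂ (castLam M x)
    rw [heckeTransfer_castLam]
  let ψ : V →ₗ[ℂ] ℂ := evalLin M γ₀ ∘ₗ V.subtype
  have hψ : ∀ x ∈ L, ∃ m : ℤ, ψ x = m := by
    rintro _ ⟨x, rfl⟩
    exact ⟨((x : Lam M) : Additive (Gamma0 M) →+ ℤ) γ₀, rfl⟩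
  have hm₀ : (((f : Additive (Gamma0 M) →+ ℤ) γ₀ : ℤ) : integralClosure ℤ ℂ) ∉ 𝔪 :=
    intCast_not_mem_of_not_dvd hp h𝔪max hp𝔪 hγ₀
  have ha : ∀ i : {l : Nat.Primes // good l}, ∃ y ∈ L,
      T i (cK ⟨f, hfK⟩) - ((a i.1 : ℤ) : ℂ) • cK ⟨f, hfK⟩ = (p : ℂ) • y := by
    intro i
    obtain ⟨y, hyK, hy⟩ := hcong i.1 i.2
    refine ⟨cK ⟨y, hyK⟩, ⟨⟨y, hyK⟩, rfl⟩, Subtype.ext ?_⟩
    show heckeTransfer M i.1 ℂ (castLam M f) - ((a i.1 : ℤ) : ℂ) • castLam M f =
      (p : ℂ) • castLam M y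
    rw [heckeTransfer_castLam]
    have h1 := congrArg (castLam M) hy
    rw [map_sub, map_zsmul, map_zsmul] at h1
    rw [Int.cast_smul_eq_zsmul, h1, ← Int.cast_smul_eq_zsmul ℂ, Int.cast_natCast]
  obtain ⟨v, lam, hv0, hv, hlam⟩ := deligneSerre T hTcomm L hLfg hLspan hLT ψ hψ p 𝔪
    h𝔪max.isPrime hp𝔪 (cK ⟨f, hfK⟩) ((f : Additive (Gamma0 M) →+ ℤ) γ₀) rfl hm₀
    (fun i => a i.1) ha
  have hvT : ∀ i : {l : Nat.Primes // good l},
      heckeTransfer M i.1 ℂ (v : Additive (Gamma0 M) →+ ℂ) =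
        (lam i : ℂ) • (v : Additive (Gamma0 M) →+ ℂ) := fun i =>
    congrArg Subtype.val (hv i)
  -- back to cusp forms
  obtain ⟨w₁, hw₁⟩ := exists_phi_eq M (hVP v.2)
  have hw₁0 : w₁ ≠ 0 := by
    rintro rfl
    apply hv0
    apply Subtype.ext
    rw [← hw₁, map_zero]
    rfl
  let F : Nat.Primes → Module.End ℂ (CuspForm (Gamma0 M) 2 × CuspForm (Gamma0 M) 2) := fun l =>
    LinearMap.prodMap (heckeFam M l) (heckeFam M l)
  have hFphi : ∀ l w, heckeTransfer M l ℂ (phi M w) = phi M (F l w) := fun l w =>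
    heckeTransfer_phi M l w
  have hFcomm' : ∀ l l' w, F l (F l' w) = F l' (F l w) := fun l l' w =>
    Prod.ext
      (congrArg (fun S : Module.End ℂ (CuspForm (Gamma0 M) 2) => S w.1) (heckeFam_commute l l').eq)
      (congrArg (fun S : Module.End ℂ (CuspForm (Gamma0 M) 2) => S w.2) (heckeFam_commute l l').eq)
  have hFcomm : ∀ l l', Commute (F l) (F l') := by
    intro l l'
    show F l * F l' = F l' * F l
    exact LinearMap.ext fun w => hFcomm' l l' w
  let 𝒲 : Submodule ℂ (CuspForm (Gamma0 M) 2 × CuspForm (Gamma0 M) 2) :=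
    { carrier := {w | ∀ i : {l : Nat.Primes // good l}, F i.1 w = (lam i : ℂ) • w}
      zero_mem' := fun i => by rw [map_zero, smul_zero]
      add_mem' := by
        rintro x y hx1 hy1
        exact fun i => by rw [map_add, hx1 i, hy1 i, smul_add]
      smul_mem' := by
        rintro c x hx1
        exact fun i => by rw [map_smul, hx1 i, smul_comm] }
  have hw₁𝒲 : w₁ ∈ 𝒲 := by
    intro i
    apply phi_injective M
    rw [← hFphi, hw₁, hvT i, map_smul, hw₁]
  have h𝒲ne : 𝒲 ≠ ⊥ := fun h => hw₁0 (by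
    have h2 := hw₁𝒲
    rw [h] at h2
    exact (Submodule.mem_bot ℂ).mp h2)
  have hinv : ∀ l, ∀ x ∈ 𝒲, F l x ∈ 𝒲 := by
    rintro l x hx1
    exact fun i => by rw [hFcomm' i.1 l x, hx1 i, map_smul]
  obtain ⟨w, hw𝒲, hw0, hw⟩ := exists_common_eigenvector F hFcomm _ 𝒲 rfl h𝒲ne hinv
  choose μ hμ using hw
  have hμgood : ∀ i : {l : Nat.Primes // good l}, μ i.1 = (lam i : ℂ) := by
    intro i
    apply smul_left_injective ℂ hw0
    show μ i.1 • w = (lam i : ℂ) • w
    rw [← hμ i.1, hw𝒲 i]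
  -- a nonzero component
  have key : ∀ u : CuspForm (Gamma0 M) 2, u ≠ 0 → (∀ l, heckeFam M l u = μ l • u) →
      ∃ (g : CuspForm (Gamma0 M) 2) (𝔪' : Ideal (integralClosure ℤ ℂ)),
        g.IsNormalizedEigenform ∧ 𝔪'.IsMaximal ∧ (p : integralClosure ℤ ℂ) ∈ 𝔪' ∧
        (∀ l : Nat.Primes, good l → ∃ c : integralClosure ℤ ℂ, (c : ℂ) = qCoeff g l ∧
          c - ((a l : ℤ) : integralClosure ℤ ℂ) ∈ 𝔪') := by
    intro u hu0 hu
    obtain ⟨g, hg, hgl⟩ := exists_normalizedEigenform_of_eigenvector u hu0 μ hu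
    refine ⟨g, 𝔪, hg, h𝔪max, hp𝔪, fun l hl => ⟨lam ⟨l, hl⟩, ?_, hlam ⟨l, hl⟩⟩⟩
    rw [hgl l]
    exact (hμgood ⟨l, hl⟩).symm
  by_cases h1 : w.1 = 0
  · have h2 : w.2 ≠ 0 := fun h2 => hw0 (Prod.ext h1 h2)
    exact key w.2 h2 fun l => congrArg Prod.snd (hμ l)
  · exact key w.1 h1 fun l => congrArg Prod.fst (hμ l)

/-- the same for the whole lattice `Kj = ⊤` -/
theorem exists_eigenform_of_class_top (M : ℕ) [NeZero M] {p : ℕ} (hp : p.Prime)
    (good : Nat.Primes → Prop) (a : Nat.Primes → ℤ)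
    (f : Lam M) (hfp : ¬ ∃ y : Lam M, f = (p : ℤ) • y)
    (hcong : ∀ l, good l → ∃ y : Lam M, TLam M l f - a l • f = (p : ℤ) • y) :
    ∃ (g : CuspForm (Gamma0 M) 2) (𝔪' : Ideal (integralClosure ℤ ℂ)),
      g.IsNormalizedEigenform ∧ 𝔪'.IsMaximal ∧ (p : integralClosure ℤ ℂ) ∈ 𝔪' ∧
      (∀ l : Nat.Primes, good l → ∃ c : integralClosure ℤ ℂ, (c : ℂ) = qCoeff g l ∧
        c - ((a l : ℤ) : integralClosure ℤ ℂ) ∈ 𝔪') :=
  exists_eigenform_of_class M hp good a ⊤ (fun _ _ _ _ => Submodule.mem_top) f Submodule.mem_top hfp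
    (fun l hl => by
      obtain ⟨y, hy⟩ := hcong l hl
      exact ⟨y, Submodule.mem_top, hy⟩)

end Fermat.Agent.FF4.K4
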