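import Fermat.Agent.LR.EigenClass
import Fermat.Agent.LR.TLamComm
import Fermat.Agent.Jac.LamAnn

/-!
# PROGRAMME II (row 38), core of the skeleton leaf (K-DICH) (helper28): the old/new dichotomy

Skeleton-independent; the wrappers are in `FF4/K4/KDich.lean` (S40 form) and
`FF4/K4/S44Leaves.lean`.

Pure commutative algebra (`dichotomy`): for a lattice `Λ` with a commuting family `T_l`, a set `S`
of primes and integers `a_l`, EITHER there is `y ∈ Λ ∖ pΛ` with `T_l y ≡ a_l y mod pΛ` (`l ∈ S`),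
OR a polynomial `t ∈ ℤ[X_l : l ∈ S]` with `t(T) = 0` on `Λ` and `p ∤ t(a)`.  Proof: let `ℤ[X_l]`
(all `l`) act through `T'_l := T_l` (`l ∈ S`), `a_l` (`l ∉ S`), and let `𝔐 := ker (t ↦ t(a) mod p)`,
a maximal ideal containing `p`.  If `Ann Λ ≤ 𝔐`, the socle lemma
`LR.EigenClass.exists_lattice_class` gives `y`; otherwise `t ∈ Ann Λ ∖ 𝔐`, and substituting
`X_l ↦ a_l` for `l ∉ S` puts `t` in `ℤ[X_l : l ∈ S]` without changing `t(T')` nor `t(a)`.
-/

set_option autoImplicit false
set_option linter.unusedSectionVars false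
set_option linter.unusedVariables false
set_option linter.style.haveILetI false

noncomputable section

namespace Fermat.Agent.FF4.K4

open ModularCurve Fermat.Agent.Jac

section Abstract

variable {Λ : Type*} [AddCommGroup Λ]

open Classical in
/-- the family `T'`: `T_l` on `S`, the scalar `a_l` off `S` -/
def cutFam (T : Nat.Primes → Module.End ℤ Λ) (S : Set Nat.Primes) (a : Nat.Primes → ℤ) :
    Nat.Primes → Module.End ℤ Λ :=
  fun l => if l ∈ S then T l else (a l : Module.End ℤ Λ)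

theorem cutFam_of_mem {T : Nat.Primes → Module.End ℤ Λ} {S : Set Nat.Primes}
    {a : Nat.Primes → ℤ} {l : Nat.Primes} (hl : l ∈ S) : cutFam T S a l = T l := by
  unfold cutFam; rw [if_pos hl]

theorem cutFam_of_not_mem {T : Nat.Primes → Module.End ℤ Λ} {S : Set Nat.Primes}
    {a : Nat.Primes → ℤ} {l : Nat.Primes} (hl : l ∉ S) :
    cutFam T S a l = (a l : Module.End ℤ Λ) := by
  unfold cutFam; rw [if_neg hl]

theorem cutFam_commute {T : Nat.Primes → Module.End ℤ Λ}
    (hT : ∀ l l', Commute (T l) (T l')) (S : Set Nat.Primes) (a : Nat.Primes → ℤ) :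
    ∀ l l', Commute (cutFam T S a l) (cutFam T S a l') := by
  intro l l'
  by_cases hl : l ∈ S
  · by_cases hl' : l' ∈ S
    · rw [cutFam_of_mem hl, cutFam_of_mem hl']; exact hT l l'
    · rw [cutFam_of_not_mem hl']; exact Int.cast_commute _ _ |>.symm
  · rw [cutFam_of_not_mem hl]; exact Int.cast_commute _ _

open Classical in
/-- the substitution `X_l ↦ X_l` (`l ∈ S`), `X_l ↦ a_l` (`l ∉ S`) -/
def cutSubst (S : Set Nat.Primes) (a : Nat.Primes → ℤ) : HeckeAlg →ₐ[ℤ] HeckeAlg :=
  MvPolynomial.aeval fun l => if l ∈ S then (MvPolynomial.X l : HeckeAlg) else MvPolynomial.C (a l)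

theorem cutSubst_X_of_mem {S : Set Nat.Primes} {a : Nat.Primes → ℤ} {l : Nat.Primes}
    (hl : l ∈ S) : cutSubst S a (MvPolynomial.X l) = MvPolynomial.X l := by
  unfold cutSubst; rw [MvPolynomial.aeval_X, if_pos hl]

theorem cutSubst_X_of_not_mem {S : Set Nat.Primes} {a : Nat.Primes → ℤ} {l : Nat.Primes}
    (hl : l ∉ S) : cutSubst S a (MvPolynomial.X l) = MvPolynomial.C (a l) := by
  unfold cutSubst; rw [MvPolynomial.aeval_X, if_neg hl]

theorem cutSubst_mem_supported (S : Set Nat.Primes) (a : Nat.Primes → ℤ) (t : HeckeAlg) :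
    cutSubst S a t ∈ MvPolynomial.supported ℤ S := by
  induction t using MvPolynomial.induction_on with
  | C c =>
    rw [← MvPolynomial.algebraMap_eq, AlgHom.commutes]
    exact Subalgebra.algebraMap_mem _ c
  | add x y hx hy => rw [map_add]; exact Subalgebra.add_mem _ hx hy
  | mul_X x l hx =>
    rw [map_mul]
    refine Subalgebra.mul_mem _ hx ?_
    by_cases hl : l ∈ S
    · rw [cutSubst_X_of_mem hl]; exact MvPolynomial.X_mem_supported.mpr hl
    · rw [cutSubst_X_of_not_mem hl, ← MvPolynomial.algebraMap_eq]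
      exact Subalgebra.algebraMap_mem _ _

theorem eval_cutSubst (S : Set Nat.Primes) (a : Nat.Primes → ℤ) (t : HeckeAlg) :
    MvPolynomial.eval a (cutSubst S a t) = MvPolynomial.eval a t := by
  induction t using MvPolynomial.induction_on with
  | C c => rw [← MvPolynomial.algebraMap_eq, AlgHom.commutes]
  | add x y hx hy => rw [map_add, map_add, map_add, hx, hy]
  | mul_X x l hx =>
    rw [map_mul, map_mul, map_mul, hx]
    congr 1
    by_cases hl : l ∈ S
    · rw [cutSubst_X_of_mem hl]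
    · rw [cutSubst_X_of_not_mem hl, MvPolynomial.eval_C, MvPolynomial.eval_X]

theorem heckeEvalOf_cutSubst {T : Nat.Primes → Module.End ℤ Λ}
    (hT : ∀ l l', Commute (T l) (T l')) (S : Set Nat.Primes) (a : Nat.Primes → ℤ)
    (t : HeckeAlg) :
    heckeEvalOf T hT (cutSubst S a t) = heckeEvalOf (cutFam T S a) (cutFam_commute hT S a) t := by
  induction t using MvPolynomial.induction_on with
  | C c =>
    rw [← MvPolynomial.algebraMap_eq, AlgHom.commutes, MvPolynomial.algebraMap_eq, heckeEvalOf_C,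
      heckeEvalOf_C]
  | add x y hx hy => rw [map_add, map_add, map_add, hx, hy]
  | mul_X x l hx =>
    rw [map_mul, map_mul, map_mul, hx]
    congr 1
    have hX : (MvPolynomial.X l : HeckeAlg) = heckeGen l := rfl
    by_cases hl : l ∈ S
    · rw [cutSubst_X_of_mem hl, hX, heckeEvalOf_heckeGen, heckeEvalOf_heckeGen, cutFam_of_mem hl]
    · rw [cutSubst_X_of_not_mem hl, heckeEvalOf_C, hX, heckeEvalOf_heckeGen,
        cutFam_of_not_mem hl]

/-- reduction of the value of a Hecke polynomial modulo `p` -/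
theorem aeval_zmod_eq (p : ℕ) (a : Nat.Primes → ℤ) (t : HeckeAlg) :
    MvPolynomial.aeval (fun l => ((a l : ℤ) : ZMod p)) t =
      ((MvPolynomial.eval a t : ℤ) : ZMod p) := by
  induction t using MvPolynomial.induction_on with
  | C c =>
    rw [MvPolynomial.aeval_C, MvPolynomial.eval_C, eq_intCast]
  | add x y hx hy => rw [map_add, map_add, hx, hy, Int.cast_add]
  | mul_X x l hx =>
    rw [map_mul, map_mul, hx, MvPolynomial.aeval_X, MvPolynomial.eval_X, Int.cast_mul]

/-- the maximal ideal `ker (t ↦ t(a) mod p)` of the abstract Hecke algebra -/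
theorem eigenIdeal_zmod_isMaximal {p : ℕ} (hp : p.Prime) (a : Nat.Primes → ℤ) :
    (eigenIdeal fun l => ((a l : ℤ) : ZMod p)).IsMaximal := by
  haveI : Fact p.Prime := ⟨hp⟩
  refine RingHom.ker_isMaximal_of_surjective _ (fun x => ?_)
  obtain ⟨n, rfl⟩ := ZMod.intCast_surjective x
  exact ⟨MvPolynomial.C n, by rw [MvPolynomial.aeval_C, eq_intCast]⟩

theorem natCast_mem_eigenIdeal_zmod (p : ℕ) (a : Nat.Primes → ℤ) :
    ((p : ℕ) : HeckeAlg) ∈ eigenIdeal fun l => ((a l : ℤ) : ZMod p) := by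
  rw [mem_eigenIdeal_iff, map_natCast, ZMod.natCast_self]

/-- **the dichotomy**: an eigenclass modulo `p`, or a killer `t ∈ ℤ[X_l : l ∈ S]` with
`p ∤ t(a)`. -/
theorem dichotomy [Module.Finite ℤ Λ] {T : Nat.Primes → Module.End ℤ Λ}
    (hT : ∀ l l', Commute (T l) (T l')) (S : Set Nat.Primes) (a : Nat.Primes → ℤ) {p : ℕ}
    (hp : p.Prime) :
    (∃ y : Λ, (¬ ∃ z : Λ, y = (p : ℤ) • z) ∧
      ∀ l ∈ S, ∃ z : Λ, T l y - a l • y = (p : ℤ) • z) ∨
    (∃ t : HeckeAlg, t ∈ MvPolynomial.supported ℤ S ∧ (∀ y : Λ, heckeEvalOf T hT t y = 0) ∧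
      ¬ (p : ℤ) ∣ MvPolynomial.eval a t) := by
  classical
  have hT' := cutFam_commute hT S a
  letI := heckeModuleOf (cutFam T S a) hT'
  set 𝔐 : Ideal HeckeAlg := eigenIdeal fun l => ((a l : ℤ) : ZMod p) with h𝔐
  have hmax : 𝔐.IsMaximal := eigenIdeal_zmod_isMaximal hp a
  have hpM : ((p : ℕ) : HeckeAlg) ∈ 𝔐 := natCast_mem_eigenIdeal_zmod p a
  by_cases hann : Module.annihilator HeckeAlg Λ ≤ 𝔐
  · left
    obtain ⟨y, hy0, hy⟩ := Fermat.Agent.LR.EigenClass.exists_lattice_class 𝔐 hmax p hp.ne_zero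
      hpM hann
    refine ⟨y, hy0, fun l hl => ?_⟩
    have hmem : (heckeGen l - MvPolynomial.C (a l) : HeckeAlg) ∈ 𝔐 :=
      heckeGen_sub_mem_eigenIdeal _ l (a l) (by rw [eq_intCast])
    obtain ⟨z, hz⟩ := hy _ hmem
    refine ⟨z, ?_⟩
    rw [← hz, heckeModuleOf_smul_def, map_sub, heckeEvalOf_heckeGen, heckeEvalOf_C,
      LinearMap.sub_apply, Module.End.intCast_apply, cutFam_of_mem hl]
  · right
    rw [SetLike.not_le_iff_exists] at hann
    obtain ⟨t, htann, htM⟩ := hann
    refine ⟨cutSubst S a t, cutSubst_mem_supported S a t, fun y => ?_, ?_⟩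
    · rw [heckeEvalOf_cutSubst hT S a t]
      exact (Module.mem_annihilator.mp htann) y
    · rw [eval_cutSubst]
      intro hdvd
      apply htM
      rw [h𝔐, mem_eigenIdeal_iff, aeval_zmod_eq]
      exact (ZMod.intCast_zmod_eq_zero_iff_dvd _ p).mpr hdvd

end Abstract

end Fermat.Agent.FF4.K4
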