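import Mathlib
import Fermat.Prelude.Def_FreyPackage_IsConductorLevel
import Fermat.Agent.Pseudo.CycloPow
import Fermat.Agent.FF4.K3Beta.Good
import Fermat.Agent.FF4.K3Beta.Model

/-!
# Programme II, K4/KNat: the K3 plug

* `K3At W p` : the body of `K3BetaModelOut` for a fixed integral model `W` and prime `p`
  (what `KNat` consumes);
* `k3At_of_frey` : `K3At W P.p` for every integral model `W` of the Frey curve of a `FreyPackage`
  with `P.IsConductorLevel N`, `P.p ∣ N`;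
* `k3At_of_good` : `K3At W p` at an odd prime of good reduction (not needed for S44);
* `natCast_eq_cycloLift`, `smul_eq_natCast_smul` : the bridge between the two shapes of (S2),
  "`t ζ = ζ ^ c → t • T = c • T`" versus "`t • T = Cyclo.cycloLift p t • T`".
-/

set_option autoImplicit false

namespace Fermat.Agent.FF4.K4.K3Plug

open WeierstrassCurve WeierstrassCurve.Affine
open Fermat.Agent.Pseudo Fermat.Agent.FF4.K3Beta

local notation "Qb" => AlgebraicClosure ℚ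
local notation "GQ" => (AlgebraicClosure ℚ ≃ₐ[ℚ] AlgebraicClosure ℚ)

/-- **K3 at `(W, p)`**: for `P₀, T₀ ∈ W[p](ℚ̄)` with (S1′) `t P₀ - P₀ ∈ ℤ T₀` and (S2)
`t T₀ = χ(t) T₀` on the inertia group `I` at `B ∣ p`, and `β ^ p = p ^ n * u` with `u` a `B`-unit
fixed by `I₁ = {t ∈ I | t ζ = ζ}` such that (S3′) the elements of `I₁` fixing `P₀` fix `β`:
`p ∣ n`. -/
def K3At (W : WeierstrassCurve ℤ) (p : ℕ) : Prop :=
  ∀ (B : ValuationSubring (AlgebraicClosure ℚ)), B.LiesOverPrime p →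
    ∀ (ζ : AlgebraicClosure ℚ), IsPrimitiveRoot ζ p →
    ∀ (P₀ T₀ : ((W.map (Int.castRingHom ℚ))⁄(AlgebraicClosure ℚ)).Point),
      (p : ℤ) • P₀ = 0 → (p : ℤ) • T₀ = 0 →
      (∀ t ∈ B.inertiaSubgroupIn ℚ, ∃ k : ℤ, t • P₀ - P₀ = k • T₀) →
      (∀ t ∈ B.inertiaSubgroupIn ℚ, ∀ c : ℕ, t ζ = ζ ^ c → t • T₀ = c • T₀) →
    ∀ (β u : AlgebraicClosure ℚ) (n : ℤ),
      β ^ p = (p : AlgebraicClosure ℚ) ^ n * u →
      B.valuation u = 1 →
      (∀ t ∈ B.inertiaSubgroupIn ℚ, t ζ = ζ → t u = u) →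
      (∀ s ∈ B.inertiaSubgroupIn ℚ, s ζ = ζ → s • P₀ = P₀ → s β = β) →
      (p : ℤ) ∣ n

/-- `K3At` for an integral model of the Frey curve at `p ∣ abc`. -/
theorem k3At_of_dvd (P : FreyPackage) (hdvd : (P.p : ℤ) ∣ P.a * P.b * P.c)
    (W : WeierstrassCurve ℤ) (hW : W.IsIntegralModelOf P.freyCurve) : K3At W P.p :=
  fun B hB ζ hζ P₀ T₀ hP₀ hT₀ hS1 hS2 β u n hβ hu hu1 hS3 =>
    k3BetaModelOut P hdvd W hW B hB ζ hζ P₀ T₀ hP₀ hT₀ hS1 hS2 β u n hβ hu hu1 hS3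

/-- **`K3At` in the context of S44.** -/
theorem k3At_of_frey (P : FreyPackage) {N : ℕ} (hcond : P.IsConductorLevel N) (hpN : P.p ∣ N)
    (W : WeierstrassCurve ℤ) (hW : W.IsIntegralModelOf P.freyCurve) : K3At W P.p :=
  k3At_of_dvd P (hcond.p_dvd_abc hpN) W hW

/-- `K3At` at an odd prime of good reduction. -/
theorem k3At_of_good (W : WeierstrassCurve ℤ) {p : ℕ} (hp : p.Prime) (hp2 : p ≠ 2)
    (hgood : W.IsGoodPrimeFor p) : K3At W p :=
  fun B hB ζ hζ P₀ T₀ hP₀ hT₀ hS1 hS2 β u n hβ hu hu1 hS3 =>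
    k3BetaOut W p hp hp2 hgood B hB ζ hζ P₀ T₀ hP₀ hT₀ hS1 hS2 β u n hβ hu hu1 hS3

/-! ### The (S2) bridge -/

section Bridge

variable {p : ℕ} [NeZero p]

/-- If `t ζ = ζ ^ c` for a primitive `p`-th root of unity `ζ` then `c ≡ cycloLift p t (mod p)`. -/
theorem natCast_eq_cycloLift {ζ : Qb} (hζ : IsPrimitiveRoot ζ p) (t : GQ) (c : ℕ)
    (h : t ζ = ζ ^ c) : (c : ZMod p) = ((Cyclo.cycloLift p t : ℤ) : ZMod p) := by
  rw [Cyclo.cycloLift_cast]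
  have h1 := Cyclo.cycloN_spec p t hζ.pow_eq_one
  rw [h] at h1
  have hpos : 0 < p := Nat.pos_of_ne_zero (NeZero.ne p)
  have h0 : ∀ k : ℕ, ζ ^ k = ζ ^ (k % p) := fun k => by
    conv_lhs => rw [← Nat.mod_add_div k p]
    rw [pow_add, pow_mul, hζ.pow_eq_one, one_pow, mul_one]
  have h2 : c ≡ ((Cyclo.cycloN p t : (ZMod p)ˣ) : ZMod p).val [MOD p] := by
    rw [h0 c, h0 ((Cyclo.cycloN p t : (ZMod p)ˣ) : ZMod p).val] at h1
    exact hζ.pow_inj (Nat.mod_lt _ hpos) (Nat.mod_lt _ hpos) h1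
  have h3 := (ZMod.natCast_eq_natCast_iff _ _ _).mpr h2
  rw [h3, ZMod.natCast_val, ZMod.cast_id]

/-- `c ≡ cycloLift p t (mod p)` as a divisibility. -/
theorem dvd_cycloLift_sub_natCast {ζ : Qb} (hζ : IsPrimitiveRoot ζ p) (t : GQ) (c : ℕ)
    (h : t ζ = ζ ^ c) : (p : ℤ) ∣ Cyclo.cycloLift p t - (c : ℤ) := by
  rw [← ZMod.intCast_zmod_eq_zero_iff_dvd]
  push_cast
  rw [← natCast_eq_cycloLift hζ t c h, sub_self]

/-- On a `p`-torsion element, `cycloLift p t • T = c • T` whenever `t ζ = ζ ^ c`. -/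
theorem cycloLift_zsmul_eq_nsmul {A : Type*} [AddCommGroup A] {ζ : Qb} (hζ : IsPrimitiveRoot ζ p)
    (t : GQ) (c : ℕ) (h : t ζ = ζ ^ c) {T : A} (hT : (p : ℤ) • T = 0) :
    Cyclo.cycloLift p t • T = c • T := by
  obtain ⟨k, hk⟩ := dvd_cycloLift_sub_natCast hζ t c h
  have e : Cyclo.cycloLift p t = (c : ℤ) + k * p := by linarith
  rw [e, add_zsmul, mul_zsmul, hT, zsmul_zero, add_zero, natCast_zsmul]

/-- **(S2) from the `cycloLift` shape**: if `t • T = cycloLift p t • T` for a `p`-torsion `T`,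
then `t • T = c • T` whenever `t ζ = ζ ^ c`. -/
theorem smul_eq_natCast_smul {A : Type*} [AddCommGroup A] [SMul GQ A] {ζ : Qb}
    (hζ : IsPrimitiveRoot ζ p) (t : GQ) (c : ℕ) (h : t ζ = ζ ^ c) {T : A}
    (hT : (p : ℤ) • T = 0) (h1 : t • T = Cyclo.cycloLift p t • T) : t • T = c • T := by
  rw [h1, cycloLift_zsmul_eq_nsmul hζ t c h hT]

end Bridge

end Fermat.Agent.FF4.K4.K3Plug
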