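import Fermat.Agent.FF4.S40Skeleton
import Fermat.Agent.FF4.K4.DSLift

/-!
# PROGRAMME II (row 38), skeleton leaf (K-DS), S40 form (helper28)

`kDS : KDS W p N` — helper4's kernel (#1875, `FF4/S40Skeleton`): a class `y ∈ Lam N`, not divisible
by `p`, which is an eigenvector modulo `p` of the `T_l` (`W` good at `l`, `l ∤ N p`, `l ≠ p`) with
eigenvalues `a_l(W)`, lifts to a normalised eigenform of level `N` congruent to `W` modulo a
maximal ideal above `p`: `W.IsResiduallyModularOfLevel p N`.  Core: `FF4/K4/DSLift.lean`.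
-/

set_option autoImplicit false
set_option linter.unusedSectionVars false
set_option linter.unusedVariables false
set_option linter.style.haveILetI false

namespace Fermat.Agent.FF4.K4

open ModularCurve CuspForm ModularFormClass
open Fermat.Agent.Jac Fermat.Agent.FF4.S40Skeleton

/-- **(K-DS), general levels**: an eigenclass of `W` modulo `p` in `Lam L` for the `T_l`,
`Good W p L' l`, with `L ∣`-compatible exceptional level `L'` (every prime `l ∤ L`, `l ≠ p` is
prime to `L'`), gives residual modularity of level `L`. -/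
theorem isResiduallyModularOfLevel_of_hasEigenclass (W : WeierstrassCurve ℤ) {p L L' : ℕ}
    [NeZero L] (hp : p.Prime)
    (hLL' : ∀ l : ℕ, l.Prime → ¬ l ∣ L → l ≠ p → ¬ l ∣ L')
    (h : HasEigenclass W p L L') : W.IsResiduallyModularOfLevel p L := by
  obtain ⟨y, hy0, hy⟩ := h
  obtain ⟨g, 𝔪', hg, hmax, hpm, hc⟩ := exists_eigenform_of_class_top L hp
    (fun l => Good W p L' l) (fun l => W.apOfModel l) y hy0 hy
  exact ⟨g, 𝔪', hg, hmax, hpm, fun ℓ hℓ h1 h2 h3 =>
    hc ⟨ℓ, hℓ⟩ ⟨h1, hLL' ℓ hℓ h2 h3, h3⟩⟩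

/-- **(K-DS)**: helper4's kernel `KDS W p N`, for `p` prime. -/
theorem kDS (W : WeierstrassCurve ℤ) {p N : ℕ} [NeZero N] (hp : p.Prime) : KDS W p N := by
  intro h
  refine isResiduallyModularOfLevel_of_hasEigenclass W hp (fun l hl hlN hlp hdvd => ?_) h
  rcases (Nat.Prime.dvd_mul hl).mp hdvd with h1 | h1
  · exact hlN h1
  · exact hlp ((Nat.prime_dvd_prime_iff_eq hl hp).mp h1)

end Fermat.Agent.FF4.K4
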