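import Fermat.Agent.FF4.S40Skeleton
import Fermat.Agent.FF4.K4.Dichotomy

/-!
# PROGRAMME II (row 38), skeleton leaf (K-DICH), S40 form (helper28)

`kDich : KDich W p N` — helper4's kernel (#1875, `FF4/S40Skeleton`): if `Lam N` carries NO
eigenclass of `W` modulo `p` for the `T_l`, `Good W p (N p) l`, then some Hecke polynomial `t` in
these `T_l` kills `Lam N` and has `p ∤ θ_W(t)`.  Core: `FF4/K4/Dichotomy.lean`.
-/

set_option autoImplicit false
set_option linter.unusedSectionVars false
set_option linter.unusedVariables false
set_option linter.style.haveILetI false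

noncomputable section

namespace Fermat.Agent.FF4.K4

open ModularCurve Fermat.Agent.Jac Fermat.Agent.FF4.S40Skeleton

/-- **(K-DICH)**: helper4's kernel `KDich W p N`, for `p` prime. -/
theorem kDich (W : WeierstrassCurve ℤ) {p N : ℕ} [NeZero N] (hp : p.Prime) : KDich W p N := by
  intro hno
  haveI := finite_Lam N
  rcases dichotomy (Fermat.Agent.LR.TLamComm.TLam_commute N)
    {l : Nat.Primes | Good W p (N * p) l} (fun l => W.apOfModel l) hp with h | h
  · exact absurd h hno
  · obtain ⟨t, ht, hkill, hθ⟩ := h
    exact ⟨t, ht, hkill, hθ⟩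

end Fermat.Agent.FF4.K4
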