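import Fermat.Agent.FF4.S44Skeleton
import Fermat.Agent.FF4.K4.KDS
import Fermat.Agent.FF4.K4.KDich

/-!
# PROGRAMME II (row 38, TARGET S44): `BaseKernels` of `FF4/S44Skeleton` v3 from (K-V) alone
(helper28)

helper4's skeleton v3 (`origin/helper4 @95143af6`): `BaseKernels W p M' = ⟨kDS, kDich, kV⟩` in the
vocabulary of `FF4/S40Skeleton`.  The first two fields are THEOREMS (`FF4/K4/{KDS,KDich}`), so
only (K-V) = (S1a) is left at the level `M'`.
-/

set_option autoImplicit false
set_option linter.unusedSectionVars false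
set_option linter.unusedVariables false
set_option linter.style.haveILetI false

namespace Fermat.Agent.FF4.K4

open Fermat.Agent.FF4.S40Skeleton Fermat.Agent.FF4.S44Skeleton

/-- **`BaseKernels` from (K-V)**: (K-DS) and (K-DICH) are theorems. -/
theorem baseKernels_of_kV (W : WeierstrassCurve ℤ) {p M' : ℕ} [NeZero M'] [NeZero p]
    [NeZero (M' * p)] (hp : p.Prime) (kV : KV W p M') : BaseKernels W p M' :=
  ⟨kDS W hp, kDich W hp, kV⟩

end Fermat.Agent.FF4.K4
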