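import Fermat.Agent.Jac.LamAnn
import Fermat.Agent.LR.TLamComm
import Fermat.Agent.Jac.HeckeCommUncond

/-!
# PROGRAMME II (row 38): WordBridge (helper28)

Vocabulary bridge between the COMMUTATIVE Hecke polynomials `t : HeckeAlg = ℤ[X_l]`,
`t ∈ MvPolynomial.supported ℤ S` (skeleton: `IsOldKiller`, `kDich`) and the WORDS
`w : FreeAlgebra ℤ ↥S` of the `q`-series end game (`K8qC`, (Q6), `liftT2`).

* `wordPoly S : FreeAlgebra ℤ ↥S →ₐ[ℤ] MvPolynomial ↥S ℤ`, `ι i ↦ X i`; `wordPoly_surjective`;
* `lift_eq_of_ringHom` : for ANY ring hom `Φ : HeckeAlg →+* E` with `Φ (X l) = T l`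
  (e.g. `heckeEvalOf T hT`, `heckeEvalBar`, `aeval a`):
  `FreeAlgebra.lift ℤ (fun i : S => T i) w = Φ (rename (↑) (wordPoly S w))`;
* `word S t : FreeAlgebra ℤ ↥S` (a chosen word of `t`), `rename_wordPoly_word` for `t ∈ supported`;
* `lift_word_heckeEvalOf`, `lift_word_aeval`, `lift_word_intCast` (value `θ(t)` in any ring),
  `lift_word_heckeEvalBar`, `lift_word_TLam`, `lift_word_TLam_apply_eq_zero`;
* **`exists_word_of_supported`** : the existential literal of the board (mail 27211).
-/

set_option autoImplicit false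
set_option linter.unusedSectionVars false
set_option linter.unusedVariables false
set_option linter.style.haveILetI false

noncomputable section

namespace Fermat.Agent.FF4.K4

open ModularCurve Fermat.Agent.Jac

variable (S : Set Nat.Primes)

/-- the commutative image of a word: `ι i ↦ X i` -/
def wordPoly : FreeAlgebra ℤ S →ₐ[ℤ] MvPolynomial S ℤ :=
  FreeAlgebra.lift ℤ fun i : S => (MvPolynomial.X i : MvPolynomial S ℤ)

@[simp] theorem wordPoly_ι (i : S) : wordPoly S (FreeAlgebra.ι ℤ i) = MvPolynomial.X i := by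
  unfold wordPoly; rw [FreeAlgebra.lift_ι_apply]

theorem wordPoly_surjective : Function.Surjective (wordPoly S) := by
  intro t
  induction t using MvPolynomial.induction_on with
  | C a => exact ⟨algebraMap ℤ _ a, by rw [AlgHom.commutes, MvPolynomial.algebraMap_eq]⟩
  | add x y hx hy =>
    obtain ⟨u, rfl⟩ := hx
    obtain ⟨v, rfl⟩ := hy
    exact ⟨u + v, map_add _ _ _⟩
  | mul_X x i hx =>
    obtain ⟨u, rfl⟩ := hx
    exact ⟨u * FreeAlgebra.ι ℤ i, by rw [map_mul, wordPoly_ι]⟩

/-- **the bridge, general form**: a ring hom `Φ` on `ℤ[X_l]` with `Φ (X_l) = T_l` evaluates the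
commutative image of a word `w` in the `X_l`, `l ∈ S`, as the word in the `T_l`. -/
theorem lift_eq_of_ringHom {E : Type*} [Ring E] [Algebra ℤ E] (Φ : HeckeAlg →+* E)
    (T : Nat.Primes → E) (hΦ : ∀ l, Φ (MvPolynomial.X l) = T l) (w : FreeAlgebra ℤ S) :
    FreeAlgebra.lift ℤ (fun i : S => T i) w =
      Φ (MvPolynomial.rename Subtype.val (wordPoly S w)) := by
  induction w using FreeAlgebra.induction with
  | grade0 n =>
    rw [AlgHom.commutes, AlgHom.commutes, AlgHom.commutes, eq_intCast, eq_intCast, map_intCast]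
  | grade1 i =>
    rw [FreeAlgebra.lift_ι_apply, wordPoly_ι, MvPolynomial.rename_X, hΦ]
  | mul a b ha hb => rw [map_mul, map_mul, map_mul, map_mul, ha, hb]
  | add a b ha hb => rw [map_add, map_add, map_add, map_add, ha, hb]

/-- every polynomial supported on `S` is the commutative image of a word -/
theorem exists_word_rename_eq {t : HeckeAlg} (ht : t ∈ MvPolynomial.supported ℤ S) :
    ∃ w : FreeAlgebra ℤ S, MvPolynomial.rename Subtype.val (wordPoly S w) = t := by
  rw [MvPolynomial.supported_eq_range_rename] at ht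
  obtain ⟨t', rfl⟩ := ht
  obtain ⟨w, rfl⟩ := wordPoly_surjective S t'
  exact ⟨w, rfl⟩

open Classical in
/-- **a word of `t`** (`0` if `t` is not supported on `S`) -/
def word (t : HeckeAlg) : FreeAlgebra ℤ S :=
  if ht : t ∈ MvPolynomial.supported ℤ S then (exists_word_rename_eq S ht).choose else 0

variable {S}

theorem rename_wordPoly_word {t : HeckeAlg} (ht : t ∈ MvPolynomial.supported ℤ S) :
    MvPolynomial.rename Subtype.val (wordPoly S (word S t)) = t := by
  unfold word
  rw [dif_pos ht]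
  exact (exists_word_rename_eq S ht).choose_spec

/-- the word of `t` evaluated through any ring hom `Φ` with `Φ (X_l) = T_l` -/
theorem lift_word_of_ringHom {E : Type*} [Ring E] [Algebra ℤ E] (Φ : HeckeAlg →+* E)
    (T : Nat.Primes → E) (hΦ : ∀ l, Φ (MvPolynomial.X l) = T l) {t : HeckeAlg}
    (ht : t ∈ MvPolynomial.supported ℤ S) :
    FreeAlgebra.lift ℤ (fun i : S => T i) (word S t) = Φ t := by
  rw [lift_eq_of_ringHom S Φ T hΦ, rename_wordPoly_word ht]

/-- **(1)** commuting families of endomorphisms: `w(T) = heckeEvalOf T hT t`. -/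
theorem lift_word_heckeEvalOf {Λ : Type*} [AddCommGroup Λ] (T : Nat.Primes → Module.End ℤ Λ)
    (hT : ∀ l l', Commute (T l) (T l')) {t : HeckeAlg}
    (ht : t ∈ MvPolynomial.supported ℤ S) :
    FreeAlgebra.lift ℤ (fun i : S => T i) (word S t) = heckeEvalOf T hT t :=
  lift_word_of_ringHom (heckeEvalOf T hT) T (fun l => heckeEvalOf_heckeGen hT l) ht

/-- **(2)** commutative rings: `w(a) = t(a)`. -/
theorem lift_word_aeval {R : Type*} [CommRing R] (a : Nat.Primes → R) {t : HeckeAlg}
    (ht : t ∈ MvPolynomial.supported ℤ S) :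
    FreeAlgebra.lift ℤ (fun i : S => a i) (word S t) = MvPolynomial.aeval a t :=
  lift_word_of_ringHom (MvPolynomial.aeval a : HeckeAlg →ₐ[ℤ] R).toRingHom a
    (fun l => MvPolynomial.aeval_X a l) ht

/-- the value of a Hecke polynomial at integers, cast to a ring -/
theorem aeval_intCast_eq {R : Type*} [CommRing R] (c : Nat.Primes → ℤ) (t : HeckeAlg) :
    MvPolynomial.aeval (fun l => ((c l : ℤ) : R)) t = ((MvPolynomial.eval c t : ℤ) : R) := by
  induction t using MvPolynomial.induction_on with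
  | C n => rw [MvPolynomial.aeval_C, MvPolynomial.eval_C, eq_intCast]
  | add x y hx hy => rw [map_add, map_add, hx, hy, Int.cast_add]
  | mul_X x l hx =>
    rw [map_mul, map_mul, hx, MvPolynomial.aeval_X, MvPolynomial.eval_X, Int.cast_mul]

/-- **(2')** integer eigenvalues `c` in any commutative ring: `w(c) = θ(t) = t(c)`. -/
theorem lift_word_intCast {R : Type*} [CommRing R] (c : Nat.Primes → ℤ) {t : HeckeAlg}
    (ht : t ∈ MvPolynomial.supported ℤ S) :
    FreeAlgebra.lift ℤ (fun i : S => ((c i : ℤ) : R)) (word S t) =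
      ((MvPolynomial.eval c t : ℤ) : R) := by
  rw [lift_word_aeval (fun l => ((c l : ℤ) : R)) ht, aeval_intCast_eq]

/-- `w(c) ≠ 0` in a ring of characteristic `p` when `p ∤ θ(t)`. -/
theorem lift_word_intCast_ne_zero {R : Type*} [CommRing R] {p : ℕ} [CharP R p]
    (c : Nat.Primes → ℤ) {t : HeckeAlg} (ht : t ∈ MvPolynomial.supported ℤ S)
    (hθ : ¬ (p : ℤ) ∣ MvPolynomial.eval c t) :
    FreeAlgebra.lift ℤ (fun i : S => ((c i : ℤ) : R)) (word S t) ≠ 0 := by
  rw [lift_word_intCast c ht]
  intro h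
  exact hθ ((CharP.intCast_eq_zero_iff R p _).mp h)

/-- **(3)** the Prelude's `heckeEvalBar` on `J₀(N)(ℚ̄)`. -/
theorem lift_word_heckeEvalBar (N : ℕ) [NeZero N] {t : HeckeAlg}
    (ht : t ∈ MvPolynomial.supported ℤ S) :
    FreeAlgebra.lift ℤ (fun i : S => heckeOperatorBar N i) (word S t) =
      heckeEvalBar (heckeOperatorsCommuteBar N) t :=
  lift_word_of_ringHom (heckeEvalBar (heckeOperatorsCommuteBar N)) (heckeOperatorBar N)
    (fun l => heckeEvalBar_heckeGen (heckeOperatorsCommuteBar N) l) ht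

/-- **(a)** the lattice `Lam M`: `w(TLam M) = tLam M t`
(`tLam M t := heckeEvalOf (TLam M) (TLam_commute M) t` in the skeleton). -/
theorem lift_word_TLam (M : ℕ) [NeZero M] {t : HeckeAlg}
    (ht : t ∈ MvPolynomial.supported ℤ S) :
    FreeAlgebra.lift ℤ (fun i : S => TLam M i) (word S t) =
      heckeEvalOf (TLam M) (Fermat.Agent.LR.TLamComm.TLam_commute M) t :=
  lift_word_heckeEvalOf (TLam M) (Fermat.Agent.LR.TLamComm.TLam_commute M) ht

/-- **(a')** pointwise form = the hypothesis of (Q6)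
(`K8Q6.lift_heckeFam_eq_zero_of_forall_apply`): an old-killer kills `Lam M` as a word. -/
theorem lift_word_TLam_apply_eq_zero (M : ℕ) [NeZero M] {t : HeckeAlg}
    (ht : t ∈ MvPolynomial.supported ℤ S)
    (hkill : ∀ y : Lam M,
      heckeEvalOf (TLam M) (Fermat.Agent.LR.TLamComm.TLam_commute M) t y = 0) (y : Lam M) :
    FreeAlgebra.lift ℤ (fun i : S => TLam M i) (word S t) y = 0 := by
  rw [lift_word_TLam M ht]; exact hkill y

universe u v

/-- **WordBridge, existential literal** (board, mail 27211). -/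
theorem exists_word_of_supported (S : Set Nat.Primes) {t : HeckeAlg}
    (ht : t ∈ MvPolynomial.supported ℤ S) :
    ∃ w : FreeAlgebra ℤ S,
      (∀ {Λ : Type u} [AddCommGroup Λ] (T : Nat.Primes → Module.End ℤ Λ)
        (hT : ∀ l l', Commute (T l) (T l')),
        FreeAlgebra.lift ℤ (fun i : S => T i) w = heckeEvalOf T hT t) ∧
      (∀ {R : Type v} [CommRing R] (a : Nat.Primes → R),
        FreeAlgebra.lift ℤ (fun i : S => a i) w = MvPolynomial.aeval a t) :=
  ⟨word S t, fun T hT => lift_word_heckeEvalOf T hT ht, fun a => lift_word_aeval a ht⟩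

end Fermat.Agent.FF4.K4
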